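import Fermat.Agent.H20.S16.Top
import Fermat.Agent.H1.S16L2.Interfaces
import Fermat.Prelude.Def_ModularCurve_PeriodHomPair

/-!
# P-S16 (helper20, project lead): second-level interfaces

Notation: `p` prime, `L = intLattice p 2`, `n = eisensteinNumerator p = (p-1)/gcd(p-1,12)`,
`σ'(k) = sigmaP p k` = sum of the divisors of `k` prime to `p`, `E' = ∑_{k ≥ 1} σ'(k) q^k`,
`E = (p-1)/24 + E'` the weight-2 Eisenstein series on `Γ₀(p)`.

Logical structure (everything below is a `Prop`; owners prove `theorem foo : FooStatement`):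

* `S16 ⇐ LBKer p ∧ UBKer p`                                   (`card_of_LB_UB`, DONE in `Top`)
* `UBKer p ⇐ DualityUBStatement ∧ UBCoreStatement`
* `UBCoreStatement ⇐ EisPStatement ∧ Trick1Statement ∧ Trick2Statement ∧ NoUnitModEightStatement`
* `LBKer p ⇐ LBCohStatement` (Shimura character, cohomological route)
   or `⇐ DualityLBStatement ∧ CuspCongr p n` (theta-series route, backup)
-/

set_option autoImplicit false

open ModularCurve CuspForm UpperHalfPlane CongruenceSubgroup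
open scoped MatrixGroups

namespace Fermat.Agent.H20.S16

/-- `σ'(k)`: the sum of the divisors of `k` prime to `p`. -/
def sigmaP (p k : ℕ) : ℤ := ∑ d ∈ k.divisors.filter (fun d => ¬ p ∣ d), (d : ℤ)

/-- `CuspCongr p m`: there is a cusp form `f` of weight 2 on `Γ₀(p)` with integer q-expansion
`a` such that `a k ≡ σ'(k) mod m` for all `k ≥ 1`. -/
def CuspCongr (p : ℕ) (m : ℕ) : Prop :=
  ∃ (f : CuspForm (Gamma0 p) 2) (a : ℕ → ℤ),
    (∀ k, ModularFormClass.qCoeff f k = (a k : ℂ)) ∧ ∀ k, 1 ≤ k → (m : ℤ) ∣ a k - sigmaP p k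

/-- (DUAL-UB, helper15) duality `L = Hom(T, ℤ)`: if every congruence modulus divides `n`,
then `n ∈ ε(ker Φ)`. -/
def DualityUBStatement : Prop :=
  ∀ (p : ℕ) [Fact p.Prime],
    (∀ m : ℕ, 1 ≤ m → CuspCongr p m → m ∣ eisensteinNumerator p) → UBKer p

/-- (DUAL-LB) the easy half of duality: a cusp form `≡ E' mod n` forces `n ∣ ε t` on `ker Φ`.
Only needed for the theta-series route to the lower bound. -/
def DualityLBStatement : Prop :=
  ∀ (p : ℕ) [Fact p.Prime], CuspCongr p (eisensteinNumerator p) → LBKer p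

/-- (UB-CORE) every congruence modulus divides `n`. -/
def UBCoreStatement : Prop :=
  ∀ (p : ℕ) [Fact p.Prime] (m : ℕ), 1 ≤ m → CuspCongr p m → m ∣ eisensteinNumerator p

/-- (EIS-P) the weight-2 Eisenstein series `E = (p E₂(pz) - E₂(z))/24` on `Γ₀(p)`. -/
def EisPStatement : Prop :=
  ∀ (p : ℕ), p.Prime → ∃ E : ModularForm (Gamma0 p) 2,
    PowerSeries.coeff 0 (qExpansion 1 (⇑E)) = ((p : ℂ) - 1) / 24 ∧
    ∀ k, 1 ≤ k → PowerSeries.coeff k (qExpansion 1 (⇑E)) = (sigmaP p k : ℂ)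

/-- (TRICK-1, weight-4 trace identity) for `H ∈ M₂(Γ₀(p))` and a cusp form `f`, both with integer
q-expansions `a`, `b`:  `(p + 1) a₀ b₁ = - ∑_{i=1}^{p-1} a_{pi} b_{p(p-i)}`
(coefficient of `q` in `Tr(H f) = 0 ∈ S₄(SL₂ℤ)`, with `H|w = -U_p H`, `f|w = -U_p f`, `U_p² f = f`).
Consequence used: a common divisor of all `a_k`, `k ≥ 1`, divides `(p + 1) a₀ b₁`. -/
def Trick1Statement : Prop :=
  ∀ (p : ℕ), p.Prime → ∀ (H : ModularForm (Gamma0 p) 2) (f : CuspForm (Gamma0 p) 2)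
    (a b : ℕ → ℤ),
    (∀ k, PowerSeries.coeff k (qExpansion 1 (⇑H)) = (a k : ℂ)) →
    (∀ k, PowerSeries.coeff k (qExpansion 1 (⇑f)) = (b k : ℂ)) →
    ((p : ℤ) + 1) * a 0 * b 1 = - ∑ i ∈ Finset.Ico 1 p, a (p * i) * b (p * (p - i))

/-- (TRICK-2, Hecke-weight trick) if `H ∈ M₂(Γ₀(p))` has integer q-expansion `a` with
`ℓ ∤ a₀` and `ℓ^e ∣ a_k` for all `k ≥ 1`, and there is a cusp form with integer q-expansion and
`b₁ = 1`, then for every prime `r ≠ p, ℓ`:  `ℓ^e ∣ r³ - r`. -/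
def Trick2Statement : Prop :=
  ∀ (p : ℕ), p.Prime → ∀ (H : ModularForm (Gamma0 p) 2) (f : CuspForm (Gamma0 p) 2)
    (a b : ℕ → ℤ),
    (∀ k, PowerSeries.coeff k (qExpansion 1 (⇑H)) = (a k : ℂ)) →
    (∀ k, PowerSeries.coeff k (qExpansion 1 (⇑f)) = (b k : ℂ)) →
    b 1 = 1 →
    ∀ (ℓ r e : ℕ), ℓ.Prime → r.Prime → r ≠ p → r ≠ ℓ →
      ¬ (ℓ : ℤ) ∣ a 0 → (∀ k, 1 ≤ k → ((ℓ : ℤ) ^ e) ∣ a k) → ℓ ^ e ∣ r ^ 3 - r

/-- (L2) helper1's statement: no weight-2 form on `Γ₀(p)`, `p ≡ 3 mod 4`, is an odd constant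
mod 8. -/
abbrev L2Statement : Prop := Fermat.Agent.H1.S16L2.NoUnitModEightStatement

/-- (LB) the lower bound in kernel form, for all primes. -/
def LBStatement : Prop := ∀ (p : ℕ) [Fact p.Prime], LBKer p

/-- (UB) the upper bound in kernel form, for all primes. -/
def UBStatement : Prop := ∀ (p : ℕ) [Fact p.Prime], UBKer p

/-! ## Lower bound, cohomological route -/

/-- A family of Hecke operators on `Hom(Γ₀(p), A)`, natural in the coefficient group `A`.
`op A ℓ` is `T_ℓ` for `ℓ ≠ p` and `U_p` for `ℓ = p`. -/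
structure CohHecke (p : ℕ) where
  /-- the operator attached to the prime `ℓ` -/
  op : ∀ (A : Type) [AddCommGroup A], Nat.Primes →
    (Additive (Gamma0 p) →+ A) →+ (Additive (Gamma0 p) →+ A)
  /-- naturality in `A` -/
  natural : ∀ (A B : Type) [AddCommGroup A] [AddCommGroup B] (g : A →+ B) (ℓ : Nat.Primes)
    (ψ : Additive (Gamma0 p) →+ A), op B ℓ (g.comp ψ) = g.comp (op A ℓ ψ)

/-- The action of the Hecke generator `X_ℓ` on cusp forms (`T_ℓ` or `U_p`), as in `heckeFormsGen`. -/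
noncomputable def formsGen (p : ℕ) [NeZero p] (ℓ : Nat.Primes) :
    Module.End ℂ (CuspForm (Gamma0 p) 2) :=
  ((heckeFormsGen p 2 ℓ : heckeAlgebra p 2 ∅) : Module.End ℂ (CuspForm (Gamma0 p) 2))

/-- (LB-EQUIV) the period map is Hecke-equivariant and the Hecke operators commute with the
character involution. -/
def CohHecke.IsEquivariant {p : ℕ} [NeZero p] (𝕋 : CohHecke p) : Prop :=
  (∀ (ℓ : Nat.Primes) (f : CuspForm (Gamma0 p) 2),
      𝕋.op ℂ ℓ (periodMap p f) = periodMap p (formsGen p ℓ f)) ∧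
  (∀ (ℓ : Nat.Primes) (ψ : Additive (Gamma0 p) →+ ℂ),
      𝕋.op ℂ ℓ (Period.charInvolution p ℂ ℂ ψ) = Period.charInvolution p ℂ ℂ (𝕋.op ℂ ℓ ψ))

/-- (LB-SHIMURA + LB-LIFT) an integral parabolic class whose reduction mod `n` is an Eisenstein
eigenvector of exact order `n`. -/
def CohHecke.HasEisensteinClass {p : ℕ} (𝕋 : CohHecke p) : Prop :=
  ∃ Ψ : Additive (Gamma0 p) →+ ℤ,
    Period.IsParabolicHom (Gamma0 p) Ψ ∧
    (∀ ℓ : Nat.Primes, ∀ γ,
      ((𝕋.op ℤ ℓ Ψ γ : ℤ) : ZMod (eisensteinNumerator p)) =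
        ((eisensteinSystem p ℓ * Ψ γ : ℤ) : ZMod (eisensteinNumerator p))) ∧
    (∀ c : ℤ, (∀ γ, ((c * Ψ γ : ℤ) : ZMod (eisensteinNumerator p)) = 0) →
      (eisensteinNumerator p : ℤ) ∣ c)

/-- (LB-COH) the package of the cohomological route. -/
def LBCohStatement : Prop :=
  ∀ (p : ℕ) [Fact p.Prime], ∃ 𝕋 : CohHecke p, 𝕋.IsEquivariant ∧ 𝕋.HasEisensteinClass

/-- (LB-FIN) assembly of the cohomological route (uses S21 and S23). -/
def LBFinStatement : Prop := LBCohStatement → LBStatement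

end Fermat.Agent.H20.S16
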