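import Fermat.Agent.H15.S16Interfaces
import Fermat.Agent.H6.S16UB.Interfaces
import Fermat.Agent.H6.Gamma0Index
import Fermat.Agent.H41.EisTwo
import Fermat.Agent.H57.Gamma0Index
import Fermat.Prelude.Thm_ModularForm_sturm_bound_Gamma0
import Fermat.Prelude.Thm_CongruenceSubgroup_one_mem_strictPeriods_Gamma0

/-!
# P-S16, UB-GLUE (helper20): `H6.S16UB.UpperBoundStatement → H15.S16UpperStatement p`

Given a cusp form `f ≡ E' mod M`, the form `H = (24 E - 24 f) / g`, `g = gcd (p - 1, 24 M)`, has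
integer coefficients, constant term `(p - 1) / g` prime to `m = 24 M / g`, and all higher
coefficients divisible by `m`.  Hence `m ∣ 24 / gcd (p - 1) 12`, which gives `M ∣ n`.
-/

set_option autoImplicit false

open ModularCurve CuspForm UpperHalfPlane CongruenceSubgroup
open scoped MatrixGroups

namespace Fermat.Agent.H20.S16

/-- pure arithmetic: from `24 M / g ∣ 24 / ν` to `M ∣ P / ν`. -/
theorem arith_glue (P M : ℕ) (hM : 0 < M)
    (h : 24 * M / Nat.gcd P (24 * M) ∣ 24 / Nat.gcd P 12) :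
    M ∣ P / Nat.gcd P 12 := by
  set g := Nat.gcd P (24 * M) with hg
  set ν := Nat.gcd P 12 with hν
  have hgpos : 0 < g := Nat.gcd_pos_of_pos_right _ (by positivity)
  have hνpos : 0 < ν := Nat.gcd_pos_of_pos_right _ (by norm_num)
  have hg24 : g ∣ 24 * M := Nat.gcd_dvd_right _ _
  have hgP : g ∣ P := Nat.gcd_dvd_left _ _
  have hν12 : ν ∣ 12 := Nat.gcd_dvd_right _ _
  have hνP : ν ∣ P := Nat.gcd_dvd_left _ _
  have hν24 : ν ∣ 24 := hν12.trans (by norm_num)
  obtain ⟨t, ht⟩ := h
  -- 24 / ν = (24 M / g) * t  ⇒  24 g = 24 M ν t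
  obtain ⟨a, ha⟩ := hg24
  obtain ⟨b, hb⟩ := hν24
  have h1 : 24 * M / g = a := by rw [ha]; exact Nat.mul_div_cancel_left a hgpos
  have h2 : 24 / ν = b := by
    conv_lhs => rw [hb]
    exact Nat.mul_div_cancel_left b hνpos
  rw [h1, h2] at ht
  -- b = a t, 24 = ν b, 24 M = g a
  have h3 : g * a = ν * (a * t) * M := by
    have : 24 * M = ν * (a * t) * M := by rw [← ht, ← hb]
    rw [← ha, this]
  have ha0 : 0 < a := by
    rcases Nat.eq_zero_or_pos a with h0 | h0
    · rw [h0, mul_zero] at ha; omega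
    · exact h0
  have h4 : g = ν * t * M := by
    have : a * g = a * (ν * t * M) := by rw [mul_comm a g, h3]; ring
    exact Nat.eq_of_mul_eq_mul_left ha0 this
  -- ν M ∣ g ∣ P
  obtain ⟨n, hn⟩ := hνP
  have h5 : ν * M ∣ ν * n := by
    rw [← hn]
    exact Dvd.dvd.trans ⟨t, by rw [h4]; ring⟩ hgP
  have h6 : M ∣ n := (Nat.mul_dvd_mul_iff_left hνpos).mp h5
  have h7 : P / ν = n := by
    conv_lhs => rw [hn]
    exact Nat.mul_div_cancel_left n hνpos
  rw [h7]; exact h6

theorem one_mem_strictPeriods' (N : ℕ) :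
    (1 : ℝ) ∈ ((Gamma0 N : Subgroup SL(2, ℤ)) : Subgroup (GL (Fin 2) ℝ)).strictPeriods :=
  CongruenceSubgroup.one_mem_strictPeriods_Gamma0 N

/-- weight-2 cusp forms on `Γ₀(3)` vanish. -/
theorem cuspForm_Gamma0_three_eq_zero (f : CuspForm (Gamma0 3) 2) : f = 0 := by
  have h : CuspForm.toModularFormₗ f = 0 := by
    refine ModularForm.sturm_bound_Gamma0 3 (k := 2) (CuspForm.toModularFormₗ f) ?_
    intro n hn
    have hidx : (Gamma0 3).index = 4 := by
      rw [H57.index_Gamma0 3]
      unfold ModularCurve.dedekindPsi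
      rw [Nat.Prime.divisors Nat.prime_three]
      have h1 : Squarefree (1 : ℕ) := squarefree_one
      have h3 : Squarefree (3 : ℕ) := Nat.prime_three.squarefree
      rw [Finset.filter_true_of_mem (by
        intro x hx
        rcases Finset.mem_insert.mp hx with rfl | hx
        · exact h1
        · rw [Finset.mem_singleton] at hx; subst hx; exact h3)]
      decide
    rw [hidx] at hn
    have hn0 : n = 0 := by
      have : ((2 : ℤ) * ((4 : ℕ) : ℤ)).toNat / 12 = 0 := by decide
      omega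
    subst hn0
    exact CuspFormClass.qExpansion_coeff_zero f one_pos (one_mem_strictPeriods' 3)
  exact CuspForm.toModularFormₗ_injective (by simpa using h)


/-- **UB-GLUE**: the assembled upper bound for forms gives the upper bound for congruences. -/
theorem upper_of_upperBound (hUB : H6.S16UB.UpperBoundStatement) (p : ℕ) [Fact p.Prime] :
    H15.S16UpperStatement p := by
  intro M hM f hf
  have hp : p.Prime := Fact.out
  haveI : NeZero p := ⟨hp.ne_zero⟩
  have hΓ := one_mem_strictPeriods' p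
  by_cases hp5 : 5 ≤ p
  swap
  · -- `p ∈ {2, 3}`: there are no cusp forms, so `M ∣ 1`
    have hp23 : p = 2 ∨ p = 3 := by
      have h2 := hp.two_le
      have h5 : p < 5 := by omega
      interval_cases p
      · exact Or.inl rfl
      · exact Or.inr rfl
      · exact absurd hp (by decide)
    have hf0 : f = 0 := by
      rcases hp23 with h | h
      · subst h; exact Fermat.Agent.H6.cuspForm_Gamma0_two_weight_two_eq_zero f
      · subst h; exact cuspForm_Gamma0_three_eq_zero f
    obtain ⟨c, hc, hdvd⟩ := hf 1 one_pos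
    have hc0 : c = 0 := by
      subst hf0
      have h0 : ModularFormClass.qCoeff (⇑(0 : CuspForm (Gamma0 p) 2)) 1 = 0 := by
        unfold ModularFormClass.qCoeff
        rw [show (⇑(0 : CuspForm (Gamma0 p) 2) : ℍ → ℂ) = 0 from rfl, qExpansion_zero]
        simp
      rw [h0] at hc
      exact_mod_cast hc.symm
    have hs1 : H15.sigmaStar p 1 = 1 := by
      unfold H15.sigmaStar
      rw [Nat.divisors_one, Finset.filter_singleton, if_pos (by
        intro h; exact hp.one_lt.ne' (Nat.dvd_one.mp h))]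
      simp
    rw [hc0, hs1] at hdvd
    have hM1 : (M : ℤ) ∣ 1 := by
      have := (dvd_neg (a := (M : ℤ)) (b := (1 : ℤ))).mp (by simpa using hdvd)
      exact this
    have : M ∣ 1 := by exact_mod_cast hM1
    rw [Nat.dvd_one.mp this]
    exact one_dvd _
  · -- main case
    classical
    let c : ℕ → ℤ := fun k => if h : 0 < k then (hf k h).choose else 0
    have hc : ∀ k, 0 < k → ModularFormClass.qCoeff (⇑f) k = (c k : ℂ) := by
      intro k hk
      simp only [c, dif_pos hk]
      exact (hf k hk).choose_spec.1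
    have hcdvd : ∀ k, 0 < k → (M : ℤ) ∣ c k - (H15.sigmaStar p k : ℤ) := by
      intro k hk
      simp only [c, dif_pos hk]
      exact (hf k hk).choose_spec.2
    set g : ℕ := Nat.gcd (p - 1) (24 * M) with hg
    have hgpos : 0 < g := Nat.gcd_pos_of_pos_right _ (by positivity)
    have hgP : g ∣ p - 1 := Nat.gcd_dvd_left _ _
    have hg24 : g ∣ 24 * M := Nat.gcd_dvd_right _ _
    set m : ℕ := 24 * M / g with hm
    have hmg : g * m = 24 * M := Nat.mul_div_cancel' hg24
    -- the integers `u k` with `24 (σ*(k) - c k) = 24 M u k`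
    have hu : ∀ k, 0 < k → ∃ u : ℤ, (H15.sigmaStar p k : ℤ) - c k = (M : ℤ) * u := by
      intro k hk
      obtain ⟨v, hv⟩ := hcdvd k hk
      exact ⟨-v, by rw [mul_neg, ← hv]; ring⟩
    let a : ℕ → ℤ := fun k => if h : 0 < k then (m : ℤ) * 24 * 0 + (m : ℤ) * (hu k h).choose
      else (((p - 1) / g : ℕ) : ℤ)
    have ha0 : a 0 = (((p - 1) / g : ℕ) : ℤ) := by simp [a]
    have hapos : ∀ k (hk : 0 < k), a k = (m : ℤ) * (hu k hk).choose := by
      intro k hk
      simp [a, dif_pos hk]
    let H : ModularForm (Gamma0 p) 2 :=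
      ((g : ℂ)⁻¹) • (H41.eisTwo p - (24 : ℂ) • CuspForm.toModularFormₗ f)
    have hgC : (g : ℂ) ≠ 0 := by exact_mod_cast hgpos.ne'
    have hqH : qExpansion 1 (⇑H) = ((g : ℂ)⁻¹) •
        (qExpansion 1 (⇑(H41.eisTwo p)) - (24 : ℂ) • qExpansion 1 (⇑f)) := by
      have e1 : (⇑H : ℍ → ℂ) = ((g : ℂ)⁻¹) •
          (⇑(H41.eisTwo p - (24 : ℂ) • CuspForm.toModularFormₗ f)) := rfl
      rw [e1, ModularForm.qExpansion_smul one_pos hΓ]
      have e2 : (⇑(H41.eisTwo p - (24 : ℂ) • CuspForm.toModularFormₗ f) : ℍ → ℂ) =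
          ⇑(H41.eisTwo p) - ⇑((24 : ℂ) • CuspForm.toModularFormₗ f) := rfl
      rw [e2, ModularForm.qExpansion_sub one_pos hΓ]
      have e3 : (⇑((24 : ℂ) • CuspForm.toModularFormₗ f) : ℍ → ℂ) =
          (24 : ℂ) • ⇑(CuspForm.toModularFormₗ f) := rfl
      rw [e3, ModularForm.qExpansion_smul one_pos hΓ]
      rfl
    have hcoeff : ∀ n, PowerSeries.coeff n (qExpansion 1 (⇑H)) = (a n : ℂ) := by
      intro n
      rw [hqH]
      simp only [map_smul, map_sub, smul_eq_mul]
      rw [H41.qExpansion_eisTwo_coeff]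
      rcases Nat.eq_zero_or_pos n with h0 | hn
      · subst h0
        rw [ha0, CuspFormClass.qExpansion_coeff_zero f one_pos hΓ, mul_zero, sub_zero]
        simp only [H41.eisTwoCoeff, if_true]
        obtain ⟨w, hw⟩ := hgP
        have hw' : (p - 1) / g = w := by rw [hw]; exact Nat.mul_div_cancel_left w hgpos
        rw [hw']
        have hpc : ((p : ℂ) - 1) = ((g : ℂ) * (w : ℂ)) := by
          have h1 : 1 ≤ p := hp.one_lt.le
          have : ((p - 1 : ℕ) : ℂ) = (g : ℂ) * (w : ℂ) := by rw [hw]; push_cast; ring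
          rw [← this]; push_cast [Nat.cast_sub h1]; ring
        rw [hpc]
        push_cast
        field_simp
      · obtain ⟨u, hau, hspec⟩ : ∃ u : ℤ, a n = (m : ℤ) * u ∧
            (H15.sigmaStar p n : ℤ) - c n = (M : ℤ) * u :=
          ⟨_, hapos n hn, (hu n hn).choose_spec⟩
        rw [hau, H41.eisTwoCoeff_prime p hp n hn.ne']
        have hfc : PowerSeries.coeff n (qExpansion 1 (⇑f)) = (c n : ℂ) := hc n hn
        rw [hfc]
        have hss : (H41.sigmaPrime p n : ℤ) = (H15.sigmaStar p n : ℤ) := rfl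
        have hgm : ((g : ℤ) * (m : ℤ)) = 24 * (M : ℤ) := by exact_mod_cast hmg
        have hZ : (24 : ℤ) * ((H41.sigmaPrime p n : ℤ) - c n) = (g : ℤ) * ((m : ℤ) * u) := by
          rw [hss]
          linear_combination 24 * hspec - u * hgm
        have hC : (24 : ℂ) * ((H41.sigmaPrime p n : ℂ) - (c n : ℂ)) =
            (g : ℂ) * (((m : ℤ) * u : ℤ) : ℂ) := by
          exact_mod_cast congrArg (fun z : ℤ => (z : ℂ)) hZ
        have : (24 : ℂ) * (H41.sigmaPrime p n : ℂ) - 24 * (c n : ℂ) =
            (g : ℂ) * (((m : ℤ) * u : ℤ) : ℂ) := by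
          rw [← hC]; ring
        rw [this]
        field_simp
    have hdiv : ∀ n, 1 ≤ n → (m : ℤ) ∣ a n := by
      intro n hn
      rw [hapos n hn]
      exact dvd_mul_right _ _
    have hcop : IsCoprime (a 0) (m : ℤ) := by
      rw [ha0]
      exact Nat.isCoprime_iff_coprime.mpr (Nat.coprime_div_gcd_div_gcd hgpos)
    have key := hUB p hp hp5 H a m hcoeff hdiv hcop
    have := arith_glue (p - 1) M hM key
    exact this

end Fermat.Agent.H20.S16
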