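import Fermat.Agent.H20.S16.LBFinal
import Fermat.Agent.H20.S16.UBGlue
import Fermat.Agent.H15.S16Bridge
import Fermat.Agent.H65.S16_UBFin
import Fermat.Agent.H97.S16UB34

/-!
# P-S16 (helper20): conditional final assembly

`s16_of_noUnit`: S16 from the five `NoUnit` statements of `H6.S16UB.Interfaces`
(lower bound, duality and glue are already proved).
-/

set_option autoImplicit false

open ModularCurve CuspForm

namespace Fermat.Agent.H20.S16

open Fermat.Agent.H6.S16UB in
/-- S16 from the assembled upper bound for forms. -/
theorem s16_of_upperBound (hUB : UpperBoundStatement) (p : ℕ) [Fact p.Prime] :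
    Nat.card (↥(heckeLatticeAlgebra p ∅) ⧸
        Ideal.map ((latticeRestrictHom p ∅).toRingHom.comp (heckeEvalForms p 2))
          (eisensteinIdeal p)) =
      eisensteinNumerator p :=
  H15.s16_of_upper_lower p (upper_of_upperBound hUB p) (s16Lower p)

open Fermat.Agent.H6.S16UB in
/-- S16 from the five `NoUnit` statements. -/
theorem s16_of_noUnit (h5 : NoUnitGeFiveStatement) (h9 : NoUnitNineStatement)
    (h3 : NoUnitThreeStatement) (h4 : NoUnitFourStatement) (h8 : NoUnitEightStatement)
    (p : ℕ) [Fact p.Prime] :
    Nat.card (↥(heckeLatticeAlgebra p ∅) ⧸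
        Ideal.map ((latticeRestrictHom p ∅).toRingHom.comp (heckeEvalForms p 2))
          (eisensteinIdeal p)) =
      eisensteinNumerator p :=
  s16_of_upperBound (H65.upperBound_of_noUnit h5 h9 h3 h4 h8) p

open Fermat.Agent.H6.S16UB in
/-- S16 from the remaining open leaves (as of 18:10Z): the trace/`U_p` statements, the two
norm-trick statements and the mod-8 statement. -/
theorem s16_of_leaves (hT : TraceSqStatement) (hU : UpStatement) (hU2 : UpSqStatement)
    (h5 : NoUnitGeFiveStatement) (h9 : NoUnitNineStatement)
    (h8 : Fermat.Agent.H1.S16L2.NoUnitModEightStatement)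
    (p : ℕ) [Fact p.Prime] :
    Nat.card (↥(heckeLatticeAlgebra p ∅) ⧸
        Ideal.map ((latticeRestrictHom p ∅).toRingHom.comp (heckeEvalForms p 2))
          (eisensteinIdeal p)) =
      eisensteinNumerator p :=
  s16_of_noUnit h5 h9 (H97.noUnitThree hT hU hU2) (H97.noUnitFour hT hU hU2)
    (H65.noUnitEight_of_modEight h8) p

end Fermat.Agent.H20.S16
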