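import Fermat.Agent.H63.S16LB.Bridge
import Fermat.Agent.H85.S16Lift
import Fermat.Agent.H89.S16Shimura
import Fermat.Agent.H57.HeckePeriod
import Fermat.Agent.S21
import Fermat.Agent.S23

/-!
# P-S16 (helper20): the lower bound, fully assembled

`lbKer p : LBKer p` and `s16Lower p : H15.S16LowerStatement p` for every prime `p`, from
helper63's assembly, helper89's Shimura class, helper85's lifting theorem, helper57's Hecke
equivariance of periods, S21 and S23.
-/

set_option autoImplicit false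

open ModularCurve CuspForm CongruenceSubgroup
open scoped MatrixGroups

namespace Fermat.Agent.H20.S16

/-- Cayley-Hamilton for `SL(2, ℤ)`: `A² = tr(A) A - 1`. -/
theorem sl2_sq (A : SL(2, ℤ)) :
    ((A * A : SL(2, ℤ)) : Matrix (Fin 2) (Fin 2) ℤ) =
      (A : Matrix (Fin 2) (Fin 2) ℤ).trace • (A : Matrix (Fin 2) (Fin 2) ℤ) - 1 := by
  have hdet : (A : Matrix (Fin 2) (Fin 2) ℤ) 0 0 * (A : Matrix (Fin 2) (Fin 2) ℤ) 1 1 -
      (A : Matrix (Fin 2) (Fin 2) ℤ) 0 1 * (A : Matrix (Fin 2) (Fin 2) ℤ) 1 0 = 1 := by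
    have := A.det_coe
    rwa [Matrix.det_fin_two] at this
  ext i j
  fin_cases i <;> fin_cases j <;>
    simp [-zsmul_eq_mul, Matrix.mul_apply, Fin.sum_univ_two, Matrix.trace, Matrix.one_apply,
      Matrix.smul_apply] <;>
    first | linear_combination (-1 : ℤ) * hdet | linear_combination (0 : ℤ) * hdet

/-- traces of powers satisfy the Chebyshev recurrence. -/
theorem sl2_trace_pow (A : SL(2, ℤ)) (k : ℕ) :
    ((A ^ (k + 2) : SL(2, ℤ)) : Matrix (Fin 2) (Fin 2) ℤ).trace =
      (A : Matrix (Fin 2) (Fin 2) ℤ).trace *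
        ((A ^ (k + 1) : SL(2, ℤ)) : Matrix (Fin 2) (Fin 2) ℤ).trace -
      ((A ^ k : SL(2, ℤ)) : Matrix (Fin 2) (Fin 2) ℤ).trace := by
  have h : ((A ^ (k + 2) : SL(2, ℤ)) : Matrix (Fin 2) (Fin 2) ℤ) =
      (A : Matrix (Fin 2) (Fin 2) ℤ).trace • ((A ^ (k + 1) : SL(2, ℤ)) :
        Matrix (Fin 2) (Fin 2) ℤ) - ((A ^ k : SL(2, ℤ)) : Matrix (Fin 2) (Fin 2) ℤ) := by
    have e1 : A ^ (k + 2) = A ^ k * (A * A) := by
      rw [pow_add, pow_two]
    have e2 : A ^ (k + 1) = A ^ k * A := pow_succ A k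
    rw [e1, e2, Matrix.SpecialLinearGroup.coe_mul, sl2_sq, Matrix.SpecialLinearGroup.coe_mul,
      Matrix.mul_sub, Matrix.mul_smul, Matrix.mul_one]
  rw [h, Matrix.trace_sub, Matrix.trace_smul, smul_eq_mul]

/-- an element of finite order of `SL(2, ℤ)` has trace in `{-2, …, 2}`. -/
theorem sl2_abs_trace_le_two_of_isOfFinOrder (A : SL(2, ℤ)) (hA : IsOfFinOrder A) :
    |(A : Matrix (Fin 2) (Fin 2) ℤ).trace| ≤ 2 := by
  by_contra hcon
  rw [not_le] at hcon
  set t := (A : Matrix (Fin 2) (Fin 2) ℤ).trace with ht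
  let τ : ℕ → ℤ := fun k => ((A ^ k : SL(2, ℤ)) : Matrix (Fin 2) (Fin 2) ℤ).trace
  have hτ0 : τ 0 = 2 := by
    simp [τ, Matrix.trace, Fin.sum_univ_two]
  have hτ1 : τ 1 = t := by simp [τ, ht]
  have hrec : ∀ k, τ (k + 2) = t * τ (k + 1) - τ k := fun k => sl2_trace_pow A k
  have key : ∀ k, |τ k| < |τ (k + 1)| ∧ 2 ≤ |τ k| := by
    intro k
    induction k with
    | zero =>
      rw [hτ0, hτ1]
      constructor
      · simpa using hcon
      · norm_num
    | succ k ih =>
      obtain ⟨ih1, ih2⟩ := ih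
      constructor
      · rw [hrec k]
        have h3 : 3 ≤ |t| := by omega
        have h1 : |t * τ (k + 1)| = |t| * |τ (k + 1)| := abs_mul _ _
        have h2 : |t * τ (k + 1)| - |τ k| ≤ |t * τ (k + 1) - τ k| := abs_sub_abs_le_abs_sub _ _
        have h4 : 0 ≤ |τ (k + 1)| := abs_nonneg _
        nlinarith
      · omega
  obtain ⟨n, hn, hAn⟩ := isOfFinOrder_iff_pow_eq_one.mp hA
  have hτn : τ n = 2 := by
    simp only [τ]
    rw [hAn]
    simp [Matrix.trace, Fin.sum_univ_two]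
  -- |τ n| ≥ 3 for n ≥ 1
  have hmono : ∀ k, 1 ≤ k → 3 ≤ |τ k| := by
    intro k hk
    induction k with
    | zero => omega
    | succ k ih =>
      have := (key k).1
      have := (key k).2
      omega
  have := hmono n hn
  rw [hτn] at this
  norm_num at this

/-- adapter: helper85's lifting theorem in helper63's shape. -/
theorem liftStatement (N : ℕ) [NeZero N] (m : ℕ) [NeZero m] : H63.LiftStatement N m := by
  intro c hpar hell
  refine H85.exists_parabolic_lift N m c hpar ?_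
  intro γ hγ
  have hγ' : IsOfFinOrder ((γ : Gamma0 N) : SL(2, ℤ)) := by
    obtain ⟨n, hn, hγn⟩ := isOfFinOrder_iff_pow_eq_one.mp hγ
    refine isOfFinOrder_iff_pow_eq_one.mpr ⟨n, hn, ?_⟩
    have := congrArg (fun x : Gamma0 N => (x : SL(2, ℤ))) hγn
    simpa using this
  have habs := sl2_abs_trace_le_two_of_isOfFinOrder _ hγ'
  set t := (((γ : Gamma0 N) : SL(2, ℤ)) : Matrix (Fin 2) (Fin 2) ℤ).trace with ht
  have hcases : t = -2 ∨ t = -1 ∨ t = 0 ∨ t = 1 ∨ t = 2 := by
    have := abs_le.mp habs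
    omega
  rcases hcases with h | h | h | h | h
  · exact hpar γ (by rw [← ht, h]; norm_num)
  · exact hell γ (Or.inr (Or.inr (by rw [← ht, h])))
  · exact hell γ (Or.inl (by rw [← ht, h]))
  · exact hell γ (Or.inr (Or.inl (by rw [← ht, h])))
  · exact hpar γ (by rw [← ht, h]; norm_num)

theorem eisensteinNumerator_pos' (p : ℕ) [Fact p.Prime] : 0 < eisensteinNumerator p := by
  have h2 : 2 ≤ p := (Fact.out : p.Prime).two_le
  have hdvd : Nat.gcd (p - 1) 12 ∣ p - 1 := Nat.gcd_dvd_left _ _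
  have hpos : 0 < Nat.gcd (p - 1) 12 := Nat.gcd_pos_of_pos_right _ (by norm_num)
  rw [eisensteinNumerator]
  exact Nat.div_pos (Nat.le_of_dvd (by omega) hdvd) hpos

/-- **The lower bound of S16**, helper15's form. -/
theorem s16Lower (p : ℕ) [Fact p.Prime] : H15.S16LowerStatement p := by
  haveI : NeZero p := ⟨(Fact.out : p.Prime).ne_zero⟩
  haveI : NeZero (eisensteinNumerator p) := ⟨(eisensteinNumerator_pos' p).ne'⟩
  exact H63.s16Lower_of_parts p (Fermat.Agent.S23.result p) (H89.shimuraStatement p)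
    (liftStatement p (eisensteinNumerator p)) (H57.heckePeriodStatement p)
    (Fermat.Agent.S21.result p)

/-- **The lower bound of S16**, kernel form. -/
theorem lbKer (p : ℕ) [Fact p.Prime] : LBKer p := s16Lower p

end Fermat.Agent.H20.S16
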