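import Fermat.Prelude.Def_CuspForm_HeckeLocal
import Fermat.Prelude.Def_CuspForm_HeckeEvalForms
import Fermat.Prelude.Def_HeckeGalois_EichlerShimura
import Fermat.Prelude.Def_ModularCurve_ModularUnit

/-!
# P-S16 (helper20, project lead): top-level interfaces and the final algebraic assembly

`T` = `heckeLatticeAlgebra p ∅`, `Φ : HeckeAlg → T` the evaluation map (surjective),
`ε : HeckeAlg → ℤ` the Eisenstein character (`X_ℓ ↦ 1 + ℓ` for `ℓ ≠ p`, `X_p ↦ 1`),
`I = ker ε = eisensteinIdeal p`, `n = eisensteinNumerator p`.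

* `LBKer p` : every `t` with `Φ t = 0` has `n ∣ ε t`            (lower bound `n ∣ |T/I|`)
* `UBKer p` : some `t` with `Φ t = 0` has `ε t = n`              (upper bound `|T/I| ∣ n`)
* `card_of_LB_UB` : `LBKer p → UBKer p → Nat.card (T ⧸ Φ(I)) = n`   (= frozen statement S16)
-/

set_option autoImplicit false

open ModularCurve CuspForm

namespace Fermat.Agent.H20.S16

/-- The evaluation map `Φ : HeckeAlg → heckeLatticeAlgebra p ∅` of the statement S16. -/
noncomputable def evalMap (p : ℕ) [NeZero p] : HeckeAlg →+* ↥(heckeLatticeAlgebra p ∅) :=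
  (latticeRestrictHom p ∅).toRingHom.comp (heckeEvalForms p 2)

/-- The Eisenstein character `ε : HeckeAlg → ℤ`. -/
noncomputable def eisChar (p : ℕ) : HeckeAlg →+* ℤ :=
  (MvPolynomial.aeval (R := ℤ) (eisensteinSystem p)).toRingHom

/-- Lower bound, kernel form. -/
def LBKer (p : ℕ) [NeZero p] : Prop :=
  ∀ t : HeckeAlg, evalMap p t = 0 → (eisensteinNumerator p : ℤ) ∣ eisChar p t

/-- Upper bound, kernel form. -/
def UBKer (p : ℕ) [NeZero p] : Prop :=
  ∃ t : HeckeAlg, evalMap p t = 0 ∧ eisChar p t = (eisensteinNumerator p : ℤ)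

theorem eisChar_surjective (p : ℕ) : Function.Surjective (eisChar p) := by
  intro a
  refine ⟨MvPolynomial.C a, ?_⟩
  simp [eisChar]

theorem ker_eisChar (p : ℕ) : RingHom.ker (eisChar p) = eisensteinIdeal p := by
  ext t
  simp only [RingHom.mem_ker, eisensteinIdeal, mem_eigenIdeal_iff]
  rfl

theorem evalMap_surjective (p : ℕ) [NeZero p] : Function.Surjective (evalMap p) := by
  intro x
  obtain ⟨y, rfl⟩ := latticeRestrictHom_surjective p ∅ x
  -- `y` lies in the algebra generated by the Hecke generators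
  have hy : (y : Module.End ℂ (CuspForm (CongruenceSubgroup.Gamma0 p) 2)) ∈
      heckeAlgebra p 2 ∅ := y.2
  have key : ∀ z ∈ heckeAlgebra p 2 ∅, ∃ t : HeckeAlg,
      ((heckeEvalForms p 2 t : heckeAlgebra p 2 ∅) :
        Module.End ℂ (CuspForm (CongruenceSubgroup.Gamma0 p) 2)) = z := by
    intro z hz
    refine Algebra.adjoin_induction (p := fun z _ => ∃ t : HeckeAlg,
      ((heckeEvalForms p 2 t : heckeAlgebra p 2 ∅) :
        Module.End ℂ (CuspForm (CongruenceSubgroup.Gamma0 p) 2)) = z) ?_ ?_ ?_ ?_ hz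
    · rintro z (⟨ℓ, hℓ, hℓN, hℓS, rfl⟩ | ⟨q, hqN, hq, hqS, rfl⟩)
      · refine ⟨heckeGen ⟨ℓ, hℓ⟩, ?_⟩
        rw [heckeEvalForms_heckeGen_of_not_dvd (ℓ := ⟨ℓ, hℓ⟩) hℓN]
        rfl
      · refine ⟨heckeGen ⟨q, hq⟩, ?_⟩
        rw [heckeEvalForms_heckeGen_of_dvd (q := ⟨q, hq⟩) hqN]
        rfl
    · intro a
      refine ⟨MvPolynomial.C a, ?_⟩
      rw [heckeEvalForms_C]
      rfl
    · rintro a b _ _ ⟨s, rfl⟩ ⟨t, rfl⟩
      exact ⟨s + t, by rw [map_add]; rfl⟩
    · rintro a b _ _ ⟨s, rfl⟩ ⟨t, rfl⟩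
      exact ⟨s * t, by rw [map_mul]; rfl⟩
  obtain ⟨t, ht⟩ := key _ hy
  refine ⟨t, ?_⟩
  have : heckeEvalForms p 2 t = y := Subtype.ext ht
  simp [evalMap, this]

/-- **Final assembly of S16**: the two kernel statements give the cardinality. -/
theorem card_of_LB_UB (p : ℕ) [Fact p.Prime] (hLB : LBKer p) (hUB : UBKer p) :
    Nat.card (↥(heckeLatticeAlgebra p ∅) ⧸
        Ideal.map ((latticeRestrictHom p ∅).toRingHom.comp (heckeEvalForms p 2))
          (eisensteinIdeal p)) =
      eisensteinNumerator p := by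
  classical
  set n := eisensteinNumerator p with hn
  have hn1 : 1 ≤ n := by
    have h2 : 2 ≤ p := (Fact.out : p.Prime).two_le
    have hdvd : Nat.gcd (p - 1) 12 ∣ p - 1 := Nat.gcd_dvd_left _ _
    have hpos : 0 < Nat.gcd (p - 1) 12 := Nat.gcd_pos_of_pos_right _ (by norm_num)
    rw [hn, eisensteinNumerator]
    exact Nat.div_pos (Nat.le_of_dvd (by omega) hdvd) hpos
  have hnz : NeZero n := ⟨by omega⟩
  -- the character mod n
  let ψ : HeckeAlg →+* ZMod n := (Int.castRingHom (ZMod n)).comp (eisChar p)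
  have hker : RingHom.ker (evalMap p) ≤ RingHom.ker ψ := by
    intro t ht
    rw [RingHom.mem_ker] at ht ⊢
    have := hLB t ht
    simp only [ψ, RingHom.comp_apply, eq_intCast]
    exact (ZMod.intCast_zmod_eq_zero_iff_dvd _ _).mpr this
  let χ : ↥(heckeLatticeAlgebra p ∅) →+* ZMod n :=
    RingHom.liftOfSurjective (evalMap p) (evalMap_surjective p) ⟨ψ, hker⟩
  have hχ : ∀ t, χ (evalMap p t) = ψ t := fun t =>
    RingHom.liftOfRightInverse_comp_apply _ _ _ _ t
  have hχsurj : Function.Surjective χ := by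
    intro a
    obtain ⟨b, rfl⟩ := ZMod.intCast_surjective a
    obtain ⟨t, ht⟩ := eisChar_surjective p b
    exact ⟨evalMap p t, by rw [hχ]; simp [ψ, ht]⟩
  have hkerχ : RingHom.ker χ = Ideal.map ((latticeRestrictHom p ∅).toRingHom.comp
      (heckeEvalForms p 2)) (eisensteinIdeal p) := by
    change RingHom.ker χ = Ideal.map (evalMap p) (eisensteinIdeal p)
    apply le_antisymm
    · intro x hx
      obtain ⟨t, rfl⟩ := evalMap_surjective p x
      rw [RingHom.mem_ker, hχ] at hx
      have hdvd : (n : ℤ) ∣ eisChar p t := by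
        simp only [ψ, RingHom.comp_apply, eq_intCast] at hx
        exact (ZMod.intCast_zmod_eq_zero_iff_dvd _ _).mp hx
      obtain ⟨c, hc⟩ := hdvd
      obtain ⟨t₀, ht₀, ht₀'⟩ := hUB
      have hmem : t - MvPolynomial.C c * t₀ ∈ eisensteinIdeal p := by
        rw [← ker_eisChar, RingHom.mem_ker, map_sub, map_mul, ht₀', hc]
        have : eisChar p (MvPolynomial.C c) = c := by simp [eisChar]
        rw [this]; ring
      have hx' : evalMap p t = evalMap p (t - MvPolynomial.C c * t₀) := by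
        rw [map_sub, map_mul, ht₀, mul_zero, sub_zero]
      rw [hx']
      exact Ideal.mem_map_of_mem _ hmem
    · rw [Ideal.map_le_iff_le_comap]
      intro t ht
      rw [Ideal.mem_comap, RingHom.mem_ker, hχ]
      rw [← ker_eisChar, RingHom.mem_ker] at ht
      simp [ψ, ht]
  rw [← hkerχ]
  have e := RingHom.quotientKerEquivOfSurjective hχsurj
  rw [Nat.card_congr e.toEquiv, Nat.card_eq_fintype_card, ZMod.card]

end Fermat.Agent.H20.S16
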